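import Fermat.Agent.S14.H937.Kummer

/-!
# S14, block LOCAL-D (helper937): decomposition group membership and residue fields
-/

set_option autoImplicit false
set_option linter.style.haveILetI false
set_option linter.unusedSectionVars false

open NumberField IsDedekindDomain IntermediateField
open scoped Pointwise

namespace Fermat.Agent.S14.H937

/-- An automorphism preserving the non-units of `A` among algebraic integers lies in the
decomposition subgroup of `A`. -/
theorem mem_decompositionSubgroup_of_integral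
    (A : ValuationSubring Qb) (ℓ : ℕ) (hℓ : ℓ.Prime) (hA : A.LiesOverPrime ℓ)
    (σ : Qb ≃ₐ[ℚ] Qb)
    (h : ∀ x : Qb, IsIntegral ℤ x → (σ x ∈ A.nonunits ↔ x ∈ A.nonunits)) :
    σ ∈ A.decompositionSubgroup ℚ := by
  haveI := h937_isAlgebraic
  have hint : ∀ (τ : Qb ≃ₐ[ℚ] Qb) (x : Qb), IsIntegral ℤ x → IsIntegral ℤ (τ x) :=
    fun τ x hx => hx.map τ
  have h' : ∀ x : Qb, IsIntegral ℤ x → (σ.symm x ∈ A.nonunits ↔ x ∈ A.nonunits) := by
    intro x hx
    have h1 := h (σ.symm x) (hint σ.symm x hx)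
    rw [AlgEquiv.apply_symm_apply] at h1
    exact h1.symm
  have key : ∀ (τ : Qb ≃ₐ[ℚ] Qb),
      (∀ x : Qb, IsIntegral ℤ x → (τ x ∈ A.nonunits ↔ x ∈ A.nonunits)) →
      ∀ x : Qb, x ∈ A → τ x ∈ A := by
    intro τ hτ x hx
    obtain ⟨b, s, hb, hs, hsA, hxs⟩ :=
      (Fermat.Agent.S54.mem_valuationSubring_iff A ℓ hℓ hA x).mp hx
    have hτb_mem : τ b ∈ A := Fermat.Agent.S54.isIntegral_mem_valuationSubring A (hint τ b hb)
    have hs0 : s ≠ 0 := fun h0 => hsA (h0 ▸ A.nonunits.zero_mem)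
    have hτsA : τ s ∉ A.nonunits := fun hcon => hsA ((hτ s hs).mp hcon)
    have hτsinv : (τ s)⁻¹ ∈ A := inv_mem_of_not_mem_nonunits A hτsA
    have hx_eq : x = b * s⁻¹ := by
      rw [← hxs]; field_simp
    rw [hx_eq, map_mul, map_inv₀]
    exact A.mul_mem _ _ hτb_mem hτsinv
  show σ • A = A
  apply le_antisymm
  · intro y hy
    obtain ⟨x, hx, rfl⟩ := (ValuationSubring.mem_smul_pointwise_iff_exists σ y A).mp hy
    exact key σ h x hx
  · intro y hy
    rw [ValuationSubring.mem_smul_pointwise_iff_exists]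
    refine ⟨σ.symm y, key σ.symm h' y hy, ?_⟩
    simp

/-- If `f(P | p) = 1` then every element of `S` is congruent to an element of `R` mod `P`. -/
theorem exists_sub_mem_of_inertiaDeg_eq_one {R S : Type*} [CommRing R] [CommRing S]
    [Algebra R S] (p : Ideal R) [p.IsMaximal] (P : Ideal S) [P.IsMaximal] [P.LiesOver p]
    (h : P.inertiaDeg R = 1) (x : S) : ∃ r : R, x - algebraMap R S r ∈ P := by
  rw [Ideal.inertiaDeg_eq_of_isMaximal p P] at h
  letI : Field (R ⧸ p) := Ideal.Quotient.field p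
  letI : Field (S ⧸ P) := Ideal.Quotient.field P
  have h1 := (finrank_eq_one_iff_of_nonzero' (K := R ⧸ p) (1 : S ⧸ P) one_ne_zero).mp h
    (Ideal.Quotient.mk P x)
  obtain ⟨c, hc⟩ := h1
  obtain ⟨r, rfl⟩ := Ideal.Quotient.mk_surjective c
  refine ⟨r, ?_⟩
  rw [← Ideal.Quotient.eq, ← hc, Algebra.smul_def, mul_one]
  rfl

end Fermat.Agent.S14.H937
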