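import Fermat.Agent.S14.H937.Ram

/-!
# S14, LOCAL-I / LOCAL-D (helper937): the Kummer extension `K(b)/K` and trivial valuations
-/

set_option autoImplicit false
set_option linter.style.haveILetI false
set_option linter.unusedSectionVars false

open NumberField IsDedekindDomain IntermediateField
open scoped Pointwise

namespace Fermat.Agent.S14.H937

/-- A valuation subring of `ℚ̄` either lies over a prime number or is everything. -/
theorem exists_liesOver_or_forall_mem (A : ValuationSubring Qb) :
    (∃ ℓ : ℕ, ℓ.Prime ∧ A.LiesOverPrime ℓ) ∨ ∀ x : Qb, x ∈ A := by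
  by_cases h : ∃ ℓ : ℕ, ℓ.Prime ∧ A.LiesOverPrime ℓ
  · exact Or.inl h
  right
  push Not at h
  have hnat : ∀ n : ℕ, n ≠ 0 → ((n : Qb))⁻¹ ∈ A := by
    intro n
    induction n using Nat.recOnMul with
    | zero => intro h0; exact absurd rfl h0
    | one => intro _; simp [A.one_mem]
    | prime ℓ hℓ =>
      intro _
      have h1 : ¬ A.LiesOverPrime ℓ := h ℓ hℓ
      exact inv_mem_of_not_mem_nonunits A h1
    | mul a b ha hb =>
      intro hab
      have ha0 : a ≠ 0 := fun h0 => hab (by simp [h0])
      have hb0 : b ≠ 0 := fun h0 => hab (by simp [h0])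
      have := A.mul_mem _ _ (ha ha0) (hb hb0)
      rw [Nat.cast_mul, mul_inv]
      exact this
  have hint : ∀ n : ℤ, n ≠ 0 → ((n : Qb))⁻¹ ∈ A := by
    intro n hn
    obtain ⟨m, rfl | rfl⟩ := n.eq_nat_or_neg
    · have hm : m ≠ 0 := by
        rintro rfl
        exact hn rfl
      simpa using hnat m hm
    · have hm : m ≠ 0 := by
        rintro rfl
        exact hn (by simp)
      have h1 := hnat m hm
      have : (((-(m : ℤ) : ℤ) : Qb))⁻¹ = -((m : Qb))⁻¹ := by
        push_cast
        rw [inv_neg]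
      rw [this]
      exact A.neg_mem _ h1
  intro x
  have halg : IsAlgebraic ℤ x :=
    (IsFractionRing.isAlgebraic_iff ℤ ℚ Qb).mpr (h937_isAlgebraic.isAlgebraic x)
  obtain ⟨y, hy0, hy⟩ := halg.exists_integral_multiple
  have h1 : y • x ∈ A := Fermat.Agent.S54.isIntegral_mem_valuationSubring A hy
  have h2 : x = ((y : Qb))⁻¹ * (y • x) := by
    have hyQ : (y : Qb) ≠ 0 := by exact_mod_cast hy0
    rw [zsmul_eq_mul, ← mul_assoc, inv_mul_cancel₀ hyQ, one_mul]
  rw [h2]
  exact A.mul_mem _ _ (hint y hy0) h1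

theorem valuation_eq_one_of_forall_mem (A : ValuationSubring Qb) (h : ∀ x : Qb, x ∈ A)
    (b : Qb) (hb : b ≠ 0) : A.valuation b = 1 := by
  apply le_antisymm
  · exact (A.valuation_le_one_iff _).mpr (h b)
  · have h4 := (A.valuation_le_one_iff _).mpr (h b⁻¹)
    rw [map_inv₀] at h4
    have hne : A.valuation b ≠ 0 := (Valuation.ne_zero_iff _).mpr hb
    exact (inv_le_one₀ (zero_lt_iff.mpr hne)).mp h4

section kummer

variable (K : IntermediateField ℚ Qb) (p : ℕ) (hp : 0 < p) (ζ : Qb) (hζ : IsPrimitiveRoot ζ p)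
  (hζK : ζ ∈ K) (b : Qb) (hb : b ^ p ∈ K)

include hp hζ hζK hb in
theorem apply_mem_adjoin (σ : Qb ≃ₐ[K] Qb) : σ b ∈ IntermediateField.adjoin K {b} := by
  by_cases hb0 : b = 0
  · rw [hb0, map_zero]; exact zero_mem _
  have h1 : (σ b) ^ p = b ^ p := by
    rw [← map_pow]
    exact σ.commutes ⟨b ^ p, hb⟩
  have h2 : (σ b / b) ^ p = 1 := by
    rw [div_pow, h1, div_self (pow_ne_zero _ hb0)]
  haveI : NeZero p := ⟨hp.ne'⟩
  obtain ⟨i, -, hi⟩ := hζ.eq_pow_of_pow_eq_one h2
  have h3 : σ b = ζ ^ i * b := by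
    rw [hi]; field_simp
  rw [h3]
  have hζM : ζ ∈ IntermediateField.adjoin K {b} := by
    have : (algebraMap K Qb ⟨ζ, hζK⟩) ∈ IntermediateField.adjoin K {b} :=
      (IntermediateField.adjoin K {b}).algebraMap_mem ⟨ζ, hζK⟩
    exact this
  exact mul_mem (pow_mem hζM i) (IntermediateField.mem_adjoin_simple_self K b)

include hp hζ hζK hb in
theorem isGalois_adjoin : IsGalois K (IntermediateField.adjoin K {b}) := by
  haveI := isGalois_Qb_over K
  have hnormal : Normal K (IntermediateField.adjoin K {b}) := by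
    rw [IntermediateField.normal_iff_forall_map_le']
    intro σ
    rw [IntermediateField.adjoin_map, IntermediateField.adjoin_le_iff]
    rintro _ ⟨x, hx, rfl⟩
    rw [Set.mem_singleton_iff] at hx
    subst hx
    exact apply_mem_adjoin K p hp ζ hζ hζK x hb σ
  exact isGalois_iff.mpr ⟨inferInstance, hnormal⟩

theorem finiteDimensional_adjoin :
    FiniteDimensional K (IntermediateField.adjoin K {b}) :=
  haveI := isGalois_Qb_over K
  IntermediateField.adjoin.finiteDimensional (Algebra.IsIntegral.isIntegral _)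

/-- An automorphism of `K(b)/K` fixing `b` is trivial. -/
theorem eq_one_of_apply_eq (τ : IntermediateField.adjoin K {b} ≃ₐ[K] IntermediateField.adjoin K {b})
    (hτ : ((τ ⟨b, IntermediateField.mem_adjoin_simple_self K b⟩ :
      IntermediateField.adjoin K {b}) : Qb) = b) : τ = 1 := by
  have h1 : ((IntermediateField.adjoin K {b}).val.comp (τ : _ →ₐ[K] _)) =
      (IntermediateField.adjoin K {b}).val := by
    apply IntermediateField.adjoin_algHom_ext
    intro x hx
    rw [Set.mem_singleton_iff] at hx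
    subst hx
    exact hτ
  ext x
  have := congrArg (fun f => f x) h1
  exact this

end kummer

end Fermat.Agent.S14.H937
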