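import Fermat.Agent.S14.H937.Kummer

/-!
# S14, block LOCAL-I (helper937)

`localI` is the body of `Fermat.Agent.S14.H554.LocalIInput p ζ` (helper554's interface), proved
for every `p > 0` and primitive `p`-th root of unity `ζ ∈ ℚ̄`:

if every element of the inertia group of `A` fixing `ζ` fixes `b`, where `b ^ p ∈ ℚ(ζ)`, then the
`A`-value of `b` is the value of a nonzero element of `ℚ(ζ)`.
-/

set_option autoImplicit false
set_option linter.style.haveILetI false
set_option linter.unusedSectionVars false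

open NumberField IsDedekindDomain IntermediateField
open scoped Pointwise

namespace Fermat.Agent.S14.H937

theorem finiteDimensional_adjoin_rat (ζ : Qb) : FiniteDimensional ℚ (ℚ⟮ζ⟯ : IntermediateField ℚ Qb) :=
  haveI := h937_isAlgebraic
  IntermediateField.adjoin.finiteDimensional (Algebra.IsIntegral.isIntegral _)

/-- Elements of `Gal(ℚ̄/K)` seen in `Gal(ℚ̄/ℚ)` fix `K` pointwise. -/
theorem restrictScalars_apply_of_mem (K : IntermediateField ℚ Qb) (σ : Qb ≃ₐ[K] Qb) {x : Qb}
    (hx : x ∈ K) : (σ.restrictScalars ℚ) x = x :=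
  σ.commutes ⟨x, hx⟩

/-- General form of LOCAL-I: `K` a number field in `ℚ̄` containing a primitive `p`-th root of
unity, `b ^ p ∈ K`; if the inertia elements of `A` fixing `K` pointwise fix `b`, then the
`A`-value of `b` is a value of `K`. -/
theorem localI_general (K : IntermediateField ℚ Qb) [FiniteDimensional ℚ K]
    (p : ℕ) (hp : 0 < p) (ζ : Qb) (hζ : IsPrimitiveRoot ζ p) (hζK : ζ ∈ K)
    (A : ValuationSubring Qb) (b : Qb) (hb0 : b ≠ 0) (hbp : b ^ p ∈ K)
    (hfix : ∀ σ ∈ A.inertiaSubgroupIn ℚ, (∀ x ∈ K, σ x = x) → σ b = b) :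
    ∃ c ∈ K, c ≠ 0 ∧ A.valuation b = A.valuation c := by
  rcases exists_liesOver_or_forall_mem A with ⟨ℓ, hℓ, hA⟩ | htriv
  · haveI := finiteDimensional_adjoin K b
    haveI := isGalois_adjoin K p hp ζ hζ hζK b hbp
    have hI : ∀ τ : IntermediateField.adjoin K {b} ≃ₐ[K] IntermediateField.adjoin K {b},
        (∀ x : 𝓞 (IntermediateField.adjoin K {b}),
          τ • x - x ∈ primeOf (IntermediateField.adjoin K {b}) A) → τ = 1 := by
      intro τ hτ
      obtain ⟨σ, hσM, hσ⟩ := exists_lift_inertia K (IntermediateField.adjoin K {b}) A τ hτ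
      have hmem : σ.restrictScalars ℚ ∈ A.inertiaSubgroupIn ℚ :=
        Fermat.Agent.S13.H175.mem_inertiaSubgroupIn_of_integral A ℓ hℓ hA _ hσ
      have h1 := hfix _ hmem (fun x hx => restrictScalars_apply_of_mem K σ hx)
      apply eq_one_of_apply_eq K b τ
      rw [← hσM]
      exact h1
    have he := ramificationIdx'_eq_one_of_inertia K (IntermediateField.adjoin K {b}) A ℓ hℓ hA hI
    obtain ⟨c, hc0, hc⟩ := exists_valuation_eq_of_ramificationIdx' K
      (IntermediateField.adjoin K {b}) A ℓ hℓ hA he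
      ⟨b, IntermediateField.mem_adjoin_simple_self K b⟩
      (fun h => hb0 (congrArg Subtype.val h))
    refine ⟨(c : Qb), c.2, ?_, hc⟩
    simpa using hc0
  · refine ⟨1, one_mem _, one_ne_zero, ?_⟩
    rw [valuation_eq_one_of_forall_mem A htriv b hb0, map_one]

/-- **LOCAL-I** in helper554's shape (`H554.LocalIInput p ζ`). -/
theorem localI (p : ℕ) (hp : 0 < p) (ζ : Qb) (hζ : IsPrimitiveRoot ζ p) :
    ∀ (A : ValuationSubring (AlgebraicClosure ℚ)) (b : AlgebraicClosure ℚ),
      b ≠ 0 → b ^ p ∈ ℚ⟮ζ⟯ →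
      (∀ σ ∈ A.inertiaSubgroupIn ℚ, σ ζ = ζ → σ b = b) →
      ∃ c ∈ ℚ⟮ζ⟯, c ≠ 0 ∧ A.valuation b = A.valuation c := by
  intro A b hb0 hbp hfix
  haveI := finiteDimensional_adjoin_rat ζ
  refine localI_general ℚ⟮ζ⟯ p hp ζ hζ (IntermediateField.mem_adjoin_simple_self ℚ ζ) A b hb0 hbp ?_
  intro σ hσ hK
  exact hfix σ hσ (hK ζ (IntermediateField.mem_adjoin_simple_self ℚ ζ))

end Fermat.Agent.S14.H937
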