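import Fermat.Agent.S14.H937.Decomp
import Fermat.Agent.S14.H937.LocalI

/-!
# S14, block LOCAL-D (helper937)

`localD` is the body of `Fermat.Agent.S14.H554.LocalDInput p ζ` (helper554's interface), proved
for every prime `p ≥ 3` (in particular `p = 3`) and primitive `p`-th root of unity `ζ ∈ ℚ̄`.
-/

set_option autoImplicit false
set_option linter.style.haveILetI false
set_option linter.unusedSectionVars false

open NumberField IsDedekindDomain IntermediateField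
open scoped Pointwise

namespace Fermat.Agent.S14.H937

/-- In `ℤᵐ⁰`, `x < 1` iff `x ≤ exp (-1)`. -/
theorem lt_one_iff_le_exp_neg_one (x : WithZero (Multiplicative ℤ)) :
    x < 1 ↔ x ≤ WithZero.exp (-1 : ℤ) := by
  have h := WithZero.lt_mul_exp_iff_le (x := x) (y := WithZero.exp (-1 : ℤ)) WithZero.exp_ne_zero
  rw [← WithZero.exp_add] at h
  simpa using h

/-- Final valuation computation for LOCAL-D: if `v (b - n) ≤ v (ζ - 1)` then
`v (b ^ p - n ^ p) ≤ v ((ζ - 1) ^ 3)`. -/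
theorem valuation_pow_sub_pow_le (A : ValuationSubring Qb) (p : ℕ) (hp3 : 3 ≤ p) (ζ : Qb)
    (hζ : IsPrimitiveRoot ζ p) (b : Qb) (n : ℤ)
    (h : A.valuation (b - (n : Qb)) ≤ A.valuation (ζ - 1)) :
    A.valuation (b ^ p - ((n ^ p : ℤ) : Qb)) ≤ A.valuation ((ζ - 1) ^ 3) := by
  have hp0 : 0 < p := by omega
  have hζint : IsIntegral ℤ ζ := ⟨Polynomial.X ^ p - 1,
    Polynomial.monic_X_pow_sub_C 1 hp0.ne', by simp [hζ.pow_eq_one]⟩
  have hζA : ζ ∈ A := Fermat.Agent.S54.isIntegral_mem_valuationSubring A hζint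
  have hlam1 : A.valuation (ζ - 1) ≤ 1 :=
    (A.valuation_le_one_iff _).mpr (sub_mem hζA A.one_mem)
  have hn1 : A.valuation (n : Qb) ≤ 1 :=
    (A.valuation_le_one_iff _).mpr (intCast_mem A n)
  -- every root of unity `μ` has `v (1 - μ) ≤ v (ζ - 1)`
  have hmu : ∀ μ ∈ Polynomial.nthRootsFinset p (1 : Qb),
      A.valuation (b - μ * (n : Qb)) ≤ A.valuation (ζ - 1) := by
    intro μ hμ
    have hμ1 : μ ^ p = 1 := (Polynomial.mem_nthRootsFinset hp0 1).mp hμ
    haveI : NeZero p := ⟨hp0.ne'⟩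
    obtain ⟨j, -, rfl⟩ := hζ.eq_pow_of_pow_eq_one hμ1
    have h1 : ζ ^ j - 1 = (∑ i ∈ Finset.range j, ζ ^ i) * (ζ - 1) := (geom_sum_mul ζ j).symm
    have hsum : (∑ i ∈ Finset.range j, ζ ^ i) ∈ A :=
      sum_mem (fun i _ => pow_mem hζA i)
    have h2 : A.valuation (ζ ^ j - 1) ≤ A.valuation (ζ - 1) := by
      rw [h1, map_mul]
      exact mul_le_of_le_one_left' ((A.valuation_le_one_iff _).mpr hsum)
    have h3 : b - ζ ^ j * (n : Qb) = (b - (n : Qb)) - (ζ ^ j - 1) * (n : Qb) := by ring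
    rw [h3]
    refine (Valuation.map_sub _ _ _).trans (max_le h ?_)
    rw [map_mul]
    exact (mul_le_of_le_one_right' hn1).trans h2
  have hfac : b ^ p - ((n ^ p : ℤ) : Qb) =
      ∏ μ ∈ Polynomial.nthRootsFinset p (1 : Qb), (b - μ * (n : Qb)) := by
    rw [← hζ.pow_sub_pow_eq_prod_sub_mul b (n : Qb) hp0]
    push_cast
    rfl
  rw [hfac, map_prod, map_pow]
  calc ∏ μ ∈ Polynomial.nthRootsFinset p (1 : Qb), A.valuation (b - μ * (n : Qb))
      ≤ A.valuation (ζ - 1) ^ (Polynomial.nthRootsFinset p (1 : Qb)).card :=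
        Finset.prod_le_pow_card _ _ _ hmu
    _ = A.valuation (ζ - 1) ^ p := by rw [hζ.card_nthRootsFinset]
    _ ≤ A.valuation (ζ - 1) ^ 3 := pow_le_pow_right_of_le_one' hlam1 hp3


section aux

variable (p : ℕ) [hp : Fact p.Prime] (hp3 : 3 ≤ p) (ζ : Qb) (hζ : IsPrimitiveRoot ζ p)
  (A : ValuationSubring Qb) (hA : A.LiesOverPrime p) (b : Qb)

/-- `𝔮` lies over `(p)`. -/
theorem primeOf_liesOver_int (F : Type*) [Field F] [NumberField F] [Algebra F Qb]
    (p : ℕ) [hp : Fact p.Prime] (A : ValuationSubring Qb) (hA : A.LiesOverPrime p) :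
    (primeOf F A).LiesOver (Ideal.span {(p : ℤ)}) := by
  constructor
  have hmax : (Ideal.span {(p : ℤ)}).IsMaximal := Int.ideal_span_isMaximal_of_prime p
  apply hmax.eq_of_le
  · exact Ideal.IsPrime.ne_top (Ideal.comap_isPrime _ _)
  · rw [Ideal.span_singleton_le_iff_mem, Ideal.under_def, Ideal.mem_comap]
    have := natCast_mem_primeOf F A p hA
    simpa using this

include hp3 hζ hA in
theorem localD_aux (hbp : b ^ p ∈ (ℚ⟮ζ⟯ : IntermediateField ℚ Qb)) (hb1 : A.valuation b = 1)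
    (he : (primeOf (ℚ⟮ζ⟯ : IntermediateField ℚ Qb) A).ramificationIdx'
      (primeOf (IntermediateField.adjoin (ℚ⟮ζ⟯ : IntermediateField ℚ Qb) {b}) A) = 1)
    (hf : (primeOf (IntermediateField.adjoin (ℚ⟮ζ⟯ : IntermediateField ℚ Qb) {b}) A).inertiaDeg
      (𝓞 (ℚ⟮ζ⟯ : IntermediateField ℚ Qb)) = 1) :
    ∃ m : ℤ, A.valuation (b ^ p - (m : Qb)) ≤ A.valuation ((ζ - 1) ^ 3) := by
  haveI := finiteDimensional_adjoin_rat ζ
  haveI := numberField_K (ℚ⟮ζ⟯ : IntermediateField ℚ Qb)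
  have hζmem : ζ ∈ (ℚ⟮ζ⟯ : IntermediateField ℚ Qb) := mem_adjoin_simple_self ℚ ζ
  haveI := finiteDimensional_adjoin (ℚ⟮ζ⟯ : IntermediateField ℚ Qb) b
  haveI := isGalois_adjoin (ℚ⟮ζ⟯ : IntermediateField ℚ Qb) p hp.out.pos ζ hζ hζmem b hbp
  haveI := numberField_M (ℚ⟮ζ⟯ : IntermediateField ℚ Qb)
    (IntermediateField.adjoin (ℚ⟮ζ⟯ : IntermediateField ℚ Qb) {b})
  haveI : NeZero p := ⟨hp.out.ne_zero⟩
  haveI hcyc : IsCyclotomicExtension {p} ℚ (ℚ⟮ζ⟯ : IntermediateField ℚ Qb) :=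
    haveI : Algebra.IsIntegral ℚ Qb := h937_isAlgebraic.isIntegral
    hζ.intermediateField_adjoin_isCyclotomicExtension ℚ
  set K : IntermediateField ℚ Qb := ℚ⟮ζ⟯ with hKdef
  set M : IntermediateField K Qb := IntermediateField.adjoin K {b} with hMdef
  -- `ζ` in `K`
  have hζK0 : IsPrimitiveRoot (⟨ζ, hζmem⟩ : K) p :=
    IsPrimitiveRoot.of_map_of_injective (f := algebraMap K Qb)
      (show IsPrimitiveRoot (algebraMap K Qb ⟨ζ, hζmem⟩) p from hζ)
      (FaithfulSMul.algebraMap_injective _ _)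
  set ζK : K := ⟨ζ, hζmem⟩ with hζKdef
  have hζK : IsPrimitiveRoot ζK p := hζK0
  -- primes
  haveI hqover : (primeOf K A).LiesOver (Ideal.span {(p : ℤ)}) := primeOf_liesOver_int K p A hA
  haveI hPover : (primeOf M A).LiesOver (Ideal.span {(p : ℤ)}) := primeOf_liesOver_int M p A hA
  haveI hPq : (primeOf M A).LiesOver (primeOf K A) := primeOf_liesOver K M A
  have hneK : primeOf K A ≠ ⊥ := primeOf_ne_bot K A p hp.out hA
  have hneM : primeOf M A ≠ ⊥ := primeOf_ne_bot M A p hp.out hA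
  haveI : (primeOf M A).IsMaximal := Ring.DimensionLEOne.maximalOfPrime hneM inferInstance
  haveI : (Ideal.span {(p : ℤ)}).IsMaximal := Int.ideal_span_isMaximal_of_prime p
  have hq_eq : primeOf K A = Ideal.span {hζK.toInteger - 1} :=
    IsCyclotomicExtension.Rat.eq_span_zeta_sub_one_of_liesOver' p K hζK (primeOf K A)
  have hfK : (primeOf K A).inertiaDeg ℤ = 1 := by
    rw [hq_eq]
    exact IsCyclotomicExtension.Rat.inertiaDeg_span_zeta_sub_one' p hζK
  have hfP : (primeOf M A).inertiaDeg ℤ = 1 := by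
    rw [Ideal.inertiaDeg_tower (R := ℤ) (S := 𝓞 K) (primeOf K A) (primeOf M A), hfK, hf]
  -- residues are integers
  have hres : ∀ x : 𝓞 M, ∃ n : ℤ, x - (n : 𝓞 M) ∈ primeOf M A := by
    intro x
    obtain ⟨n, hn⟩ := exists_sub_mem_of_inertiaDeg_eq_one (Ideal.span {(p : ℤ)})
      (primeOf M A) hfP x
    exact ⟨n, by simpa using hn⟩
  -- valuations
  set v := hos K A hneK with hv
  set w := hos M A hneM with hw
  haveI : w.asIdeal.LiesOver v.asIdeal := primeOf_liesOver K M A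
  set bM : M := ⟨b, IntermediateField.mem_adjoin_simple_self K b⟩ with hbM
  have hbA : b ∈ A := (A.valuation_le_one_iff b).mp hb1.le
  have hwb : w.valuation M bM ≤ 1 :=
    valuation_le_one_of_mem M A w (hos_asIdeal M A hneM) bM hbA
  obtain ⟨a, ha⟩ := w.exists_valuation_sub_lt_of_integer hwb (1 : (WithZero (Multiplicative ℤ))ˣ)
  rw [Units.val_one] at ha
  obtain ⟨n, hn⟩ := hres a
  have hn' : w.valuation M (algebraMap (𝓞 M) M (a - (n : 𝓞 M))) < 1 :=
    (w.valuation_lt_one_iff_mem _).mpr hn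
  have hbn : w.valuation M (bM - (n : M)) < 1 := by
    have h1 : bM - (n : M) = algebraMap (𝓞 M) M (a - (n : 𝓞 M)) - (algebraMap (𝓞 M) M a - bM) := by
      rw [map_sub, map_intCast]; ring
    rw [h1]
    exact Valuation.map_sub_lt _ hn' ha
  -- the value of `ζ - 1`
  have hlamK : v.valuation K (ζK - 1) = WithZero.exp (-1 : ℤ) := by
    have h0 : hζK.toInteger - 1 ≠ 0 := by
      intro h0
      rw [h0, Ideal.span_singleton_eq_bot.mpr rfl] at hq_eq
      exact hneK hq_eq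
    have h1 := v.intValuation_singleton h0 hq_eq
    rw [← v.valuation_of_algebraMap (K := K)] at h1
    rw [← h1]
    congr 1
  have hlamM : w.valuation M (algebraMap K M (ζK - 1)) = WithZero.exp (-1 : ℤ) := by
    have h1 := HeightOneSpectrum.valuation_liesOver M v w (ζK - 1)
    have he' : v.asIdeal.ramificationIdx' w.asIdeal = 1 := he
    rw [he', pow_one, hlamK] at h1
    exact h1.symm
  have hle : w.valuation M (bM - (n : M)) ≤ w.valuation M (algebraMap K M (ζK - 1)) := by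
    rw [hlamM]
    exact (lt_one_iff_le_exp_neg_one _).mp hbn
  have hlam0 : w.valuation M (algebraMap K M (ζK - 1)) ≠ 0 := by
    rw [hlamM]; exact WithZero.exp_ne_zero
  have hquot : w.valuation M ((bM - (n : M)) / algebraMap K M (ζK - 1)) ≤ 1 := by
    rw [map_div₀]
    exact div_le_one_of_le₀ hle zero_le
  have hmemA := mem_of_valuation_le_one M A w (hos_asIdeal M A hneM) _ hquot
  rw [map_div₀, map_sub, map_intCast] at hmemA
  have h4 : algebraMap M Qb (algebraMap K M (ζK - 1)) = ζ - 1 := by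
    rw [← IsScalarTower.algebraMap_apply K M Qb, map_sub, map_one]
    rfl
  have h5 : algebraMap M Qb bM = b := rfl
  rw [h4, h5] at hmemA
  have hz1 : ζ - 1 ≠ 0 := by
    intro h0
    have : ζ = 1 := sub_eq_zero.mp h0
    have h1 := hζ.unique (this ▸ IsPrimitiveRoot.one)
    have := hp.out.one_lt
    omega
  have hfinal : A.valuation (b - (n : Qb)) ≤ A.valuation (ζ - 1) := by
    have h6 := (A.valuation_le_one_iff _).mpr hmemA
    rw [map_div₀] at h6
    have hv0 : A.valuation (ζ - 1) ≠ 0 := (Valuation.ne_zero_iff _).mpr hz1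
    exact (div_le_one₀ (zero_lt_iff.mpr hv0)).mp h6
  exact ⟨n ^ p, valuation_pow_sub_pow_le A p hp3 ζ hζ b n hfinal⟩

end aux

/-- **LOCAL-D** in helper554's shape (`H554.LocalDInput p ζ`), for every prime `p ≥ 3`. -/
theorem localD (p : ℕ) [hp : Fact p.Prime] (hp3 : 3 ≤ p) (ζ : Qb) (hζ : IsPrimitiveRoot ζ p) :
    ∀ (A : ValuationSubring (AlgebraicClosure ℚ)), A.LiesOverPrime p →
    ∀ (b : AlgebraicClosure ℚ), b ^ p ∈ ℚ⟮ζ⟯ → A.valuation b = 1 →
      (∀ σ ∈ A.decompositionSubgroup ℚ, σ ζ = ζ → σ b = b) →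
      ∃ m : ℤ, A.valuation (b ^ p - (m : AlgebraicClosure ℚ)) ≤ A.valuation ((ζ - 1) ^ 3) := by
  intro A hA b hbp hb1 hfix
  haveI := finiteDimensional_adjoin_rat ζ
  haveI := numberField_K (ℚ⟮ζ⟯ : IntermediateField ℚ Qb)
  have hζmem : ζ ∈ (ℚ⟮ζ⟯ : IntermediateField ℚ Qb) := mem_adjoin_simple_self ℚ ζ
  haveI := finiteDimensional_adjoin (ℚ⟮ζ⟯ : IntermediateField ℚ Qb) b
  haveI := isGalois_adjoin (ℚ⟮ζ⟯ : IntermediateField ℚ Qb) p hp.out.pos ζ hζ hζmem b hbp
  haveI := numberField_M (ℚ⟮ζ⟯ : IntermediateField ℚ Qb)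
    (IntermediateField.adjoin (ℚ⟮ζ⟯ : IntermediateField ℚ Qb) {b})
  -- the decomposition group of `P | 𝔮` is trivial
  have hD : ∀ τ : IntermediateField.adjoin (ℚ⟮ζ⟯ : IntermediateField ℚ Qb) {b} ≃ₐ[
      (ℚ⟮ζ⟯ : IntermediateField ℚ Qb)] IntermediateField.adjoin (ℚ⟮ζ⟯ : IntermediateField ℚ Qb) {b},
      (∀ x : 𝓞 (IntermediateField.adjoin (ℚ⟮ζ⟯ : IntermediateField ℚ Qb) {b}),
        τ • x ∈ primeOf (IntermediateField.adjoin (ℚ⟮ζ⟯ : IntermediateField ℚ Qb) {b}) A ↔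
          x ∈ primeOf (IntermediateField.adjoin (ℚ⟮ζ⟯ : IntermediateField ℚ Qb) {b}) A) →
      τ = 1 := by
    intro τ hτ
    obtain ⟨σ, hσM, hσ⟩ := exists_lift_decomp _ _ A τ hτ
    have hmem : σ.restrictScalars ℚ ∈ A.decompositionSubgroup ℚ :=
      mem_decompositionSubgroup_of_integral A p hp.out hA _ hσ
    have h1 := hfix _ hmem (restrictScalars_apply_of_mem _ σ hζmem)
    apply eq_one_of_apply_eq _ b τ
    rw [← hσM]
    exact h1
  obtain ⟨he, hf⟩ := ramificationIdx'_inertiaDeg_eq_one_of_stabilizer _ _ A p hp.out hA hD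
  exact localD_aux p hp3 ζ hζ A hA b hbp hb1 he hf

end Fermat.Agent.S14.H937
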